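import Fermat.Agent.IsogenyPrimes.LocalModel
import Fermat.Agent.IsogenyPrimes.Inertia

/-!
# A uniform exponent for the field of a local model

A root of a polynomial over `ℚ` of degree at most `d` is fixed by `σ ^ N` for every `σ` as soon as
every positive integer up to `d` divides `N`. Applied to the Deuring and Legendre parameters, and
with the automorphisms `±1` of a curve with `c₄ c₆ ≠ 0`, this bounds the field of a change of
variables to a good or nodal equation: `σ ^ N` fixes it for `144 ∣ N`, and for `120 ∣ N` at `3`.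
-/

set_option autoImplicit false
set_option linter.style.haveILetI false

noncomputable section

open Polynomial WeierstrassCurve
open scoped WeierstrassCurve.Affine

local notation "Qb" => AlgebraicClosure ℚ
local notation "GQ" => AlgebraicClosure ℚ ≃ₐ[ℚ] AlgebraicClosure ℚ

namespace FA.SerreEffective

/-- A root of a polynomial of degree at most `d` fixed by `σ` is fixed by `σ ^ N`. -/
theorem pow_apply_eq_of_root {σ : GQ} {x : Qb} {P : Qb[X]} (hP : P ≠ 0) {d : ℕ}
    (hd : P.natDegree ≤ d) (hσ : P.map (σ : Qb →+* Qb) = P) (hx : P.eval x = 0) {N : ℕ}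
    (hN : ∀ m, 0 < m → m ≤ d → m ∣ N) : (σ ^ N) x = x := by
  classical
  have hroot : ∀ i : ℕ, (σ ^ i) x ∈ P.roots.toFinset := fun i => by
    rw [Multiset.mem_toFinset, mem_roots hP]
    induction i with
    | zero => exact hx
    | succ i ih =>
      have h := congrArg (σ : Qb →+* Qb) ih
      rw [map_zero, ← eval_map_apply, hσ] at h
      rw [pow_succ']
      exact h
  obtain ⟨i, hi, j, hj, hij, e⟩ := Finset.exists_ne_map_eq_of_card_lt_of_maps_to
    (s := Finset.range (d + 1)) (t := P.roots.toFinset) (f := fun i : ℕ => (σ ^ i) x)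
    (by
      rw [Finset.card_range]
      exact Nat.lt_succ_of_le
        ((Multiset.toFinset_card_le _).trans ((card_roots' P).trans hd)))
    fun i _ => hroot i
  rw [Finset.mem_range] at hi hj
  wlog hlt : i < j generalizing i j
  · exact this j hj i hi hij.symm e.symm (by omega)
  obtain ⟨k, hk⟩ := hN (j - i) (by omega) (by omega)
  have h1 : (σ ^ (j - i)) x = x := (σ ^ i).injective (by
    rw [← AlgEquiv.mul_apply, ← pow_add, show i + (j - i) = j by omega]; exact e.symm)
  have h2 : σ ^ (j - i) ∈ MulAction.stabilizer GQ x := h1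
  rw [hk, pow_mul]
  exact pow_mem h2 k

/-- The automorphisms of an equation with `c₄ c₆ ≠ 0` are `±1`. -/
theorem eq_one_or_neg {F : Type*} [Field F] [CharZero F] {W : WeierstrassCurve F} (h4 : W.c₄ ≠ 0)
    (h6 : W.c₆ ≠ 0) {D : VariableChange F} (hD : D • W = W) :
    D = 1 ∨ D = ⟨-1, 0, -W.a₁, -W.a₃⟩ := by
  have e4 := congrArg WeierstrassCurve.c₄ hD
  have e6 := congrArg WeierstrassCurve.c₆ hD
  rw [variableChange_c₄] at e4
  rw [variableChange_c₆] at e6
  set w := ((D.u⁻¹ : Fˣ) : F) with hw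
  have w4 : w ^ 4 = 1 := mul_right_cancel₀ h4 (by rw [e4, one_mul])
  have w6 : w ^ 6 = 1 := mul_right_cancel₀ h6 (by rw [e6, one_mul])
  have w2 : w ^ 2 = 1 := by linear_combination w6 - w ^ 2 * w4
  have e1 := congrArg WeierstrassCurve.a₁ hD
  have e2 := congrArg WeierstrassCurve.a₂ hD
  have e3 := congrArg WeierstrassCurve.a₃ hD
  simp only [variableChange_a₁, variableChange_a₂, variableChange_a₃, ← hw] at e1 e2 e3
  rw [w2, one_mul] at e2
  have hu : (D.u : F) * w = 1 := D.u.mul_inv
  rcases sq_eq_one_iff.mp w2 with h | h <;> rw [h] at e1 e3 hu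
  · have hs : D.s = 0 := by linear_combination e1 / 2
    have hr : D.r = 0 := by rw [hs] at e2; linear_combination e2 / 3
    refine Or.inl (VariableChange.ext (Units.ext ?_) hr hs ?_)
    · simpa [VariableChange.one_def] using hu
    · rw [hr] at e3; simp only [VariableChange.one_def]; linear_combination e3 / 2
  · have hs : D.s = -W.a₁ := by linear_combination -(e1 / 2)
    have hr : D.r = 0 := by rw [hs] at e2; linear_combination e2 / 3
    refine Or.inr (VariableChange.ext (Units.ext ?_) hr hs ?_)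
    · rw [Units.val_neg, Units.val_one]
      linear_combination -hu
    · rw [hr] at e3; linear_combination -(e3 / 2)

/-- `σ` squared fixes a change of variables to an equation it fixes, if `c₄ c₆ ≠ 0`. -/
theorem sq_fixes_variableChange {E : WeierstrassCurve ℚ} (h4 : E.c₄ ≠ 0) (h6 : E.c₆ ≠ 0)
    {W : WeierstrassCurve Qb} {C : VariableChange Qb} (hC : C • (E⁄Qb) = W) {τ : GQ}
    (hτ : W.map (τ : Qb →+* Qb) = W) :
    C.map ((τ ^ 2 : GQ) : Qb →+* Qb) = C := by
  have hE : (E⁄Qb).map (τ : Qb →+* Qb) = E⁄Qb := by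
    show (E.map (algebraMap ℚ Qb)).map _ = E.map _
    rw [WeierstrassCurve.map_map]
    exact congrArg _ (RingHom.ext fun x => τ.commutes x)
  have hC' : C.map (τ : Qb →+* Qb) • (E⁄Qb) = W := by
    conv_lhs => rw [← hE]
    rw [WeierstrassCurve.map_variableChange, hC, hτ]
  have w4 : W.c₄ ≠ 0 := by
    rw [← hC, variableChange_c₄]
    exact mul_ne_zero (pow_ne_zero _ (Units.ne_zero _))
      (by erw [map_c₄]; exact (_root_.map_ne_zero _).mpr h4)
  have w6 : W.c₆ ≠ 0 := by
    rw [← hC, variableChange_c₆]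
    exact mul_ne_zero (pow_ne_zero _ (Units.ne_zero _))
      (by erw [map_c₆]; exact (_root_.map_ne_zero _).mpr h6)
  have hD : (C.map (τ : Qb →+* Qb) * C⁻¹) • W = W := by
    rw [mul_smul, show C⁻¹ • W = E⁄Qb by rw [← hC, inv_smul_smul], hC']
  set D := C.map (τ : Qb →+* Qb) * C⁻¹ with hDdef
  have hτC : C.map (τ : Qb →+* Qb) = D * C := by rw [hDdef, inv_mul_cancel_right]
  have a₁ : τ W.a₁ = W.a₁ := congrArg WeierstrassCurve.a₁ hτ
  have a₃ : τ W.a₃ = W.a₃ := congrArg WeierstrassCurve.a₃ hτ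
  have hsq : D.map (τ : Qb →+* Qb) = D ∧ D * D = 1 := by
    rcases eq_one_or_neg w4 w6 hD with e | e <;> rw [e]
    · exact ⟨(VariableChange.mapHom (τ : Qb →+* Qb)).map_one, one_mul 1⟩
    · constructor
      · ext <;> simp [VariableChange.map, a₁, a₃]
      · ext <;> simp [VariableChange.mul_def, VariableChange.one_def]
        ring
  have hcomp : C.map ((τ ^ 2 : GQ) : Qb →+* Qb) =
      (C.map (τ : Qb →+* Qb)).map (τ : Qb →+* Qb) := by
    rw [VariableChange.map_map, pow_two]
    rfl
  rw [hcomp, hτC, show (D * C).map (τ : Qb →+* Qb) =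
      D.map (τ : Qb →+* Qb) * C.map (τ : Qb →+* Qb) from map_mul (VariableChange.mapHom _) D C,
    hsq.1, hτC, ← mul_assoc, hsq.2, one_mul]

/-- The parameter of the normal form is fixed by a power. -/
theorem deuring_fixed {j : ℚ} {a : Qb}
    (ha : (a * (a ^ 3 - 24)) ^ 3 = algebraMap ℚ Qb j * (a ^ 3 - 27)) (σ : GQ) {N : ℕ}
    (hN : 72 ∣ N) : (σ ^ N) a = a := by
  obtain ⟨k, rfl⟩ := hN
  set J := algebraMap ℚ Qb j with hJ
  let P : Qb[X] := X * (X - C 24) ^ 3 - C J * X + C (27 * J)
  have hdeg : P.natDegree = 4 := by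
    show (X * (X - C (24 : Qb)) ^ 3 - C J * X + C (27 * J)).natDegree = 4
    compute_degree!
  have h12 : (σ ^ 12) (a ^ 3) = a ^ 3 := by
    refine pow_apply_eq_of_root (P := P) (fun h => by simp [h] at hdeg) hdeg.le ?_ ?_ ?_
    · simp [P, hJ, map_ofNat]
    · simp only [P, eval_add, eval_sub, eval_mul, eval_pow, eval_X, eval_C]
      linear_combination ha
    · intro m h0 h; interval_cases m <;> norm_num
  have h6 : ((σ ^ 12) ^ 6) a = a := by
    have hdeg3 : (X ^ 3 - C (a ^ 3) : Qb[X]).natDegree = 3 := natDegree_X_pow_sub_C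
    refine pow_apply_eq_of_root (P := X ^ 3 - C (a ^ 3)) (X_pow_sub_C_ne_zero three_pos _) hdeg3.le
      ?_ (by simp) ?_
    · rw [Polynomial.map_sub, Polynomial.map_pow, map_X, map_C]
      exact congrArg (fun z => X ^ 3 - C z) h12
    · intro m h0 h; interval_cases m <;> norm_num
  rw [← pow_mul] at h6
  have h2 : σ ^ 72 ∈ MulAction.stabilizer GQ a := h6
  rw [pow_mul]
  exact pow_mem h2 k

/-- The Legendre parameter is fixed by a power. -/
theorem legendre_fixed {j : ℚ} {l : Qb}
    (hl : 256 * (l ^ 2 - l + 1) ^ 3 = algebraMap ℚ Qb j * (l ^ 2 * (l - 1) ^ 2)) (σ : GQ) {N : ℕ}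
    (hN : 60 ∣ N) : (σ ^ N) l = l := by
  set J := algebraMap ℚ Qb j with hJ
  let P : Qb[X] := C 256 * (X ^ 2 - X + 1) ^ 3 - C J * (X ^ 2 * (X - 1) ^ 2)
  have hdeg : P.natDegree = 6 := by
    show (C (256 : Qb) * (X ^ 2 - X + 1) ^ 3 - C J * (X ^ 2 * (X - 1) ^ 2)).natDegree = 6
    compute_degree!
  refine pow_apply_eq_of_root (P := P) (fun h => by simp [h] at hdeg) hdeg.le ?_ ?_ ?_
  · simp [P, hJ, map_ofNat]
  · simp only [P, eval_add, eval_sub, eval_mul, eval_pow, eval_X, eval_C, eval_one]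
    linear_combination hl
  · intro m h0 h
    interval_cases m <;> exact dvd_trans (by norm_num) hN

/-- **The exponent of a local model**: at every place of `q` some change of variables to a good or
nodal equation is fixed entrywise by every `N`-th power, if `144 ∣ N`, or `120 ∣ N` at `q = 3`. -/
theorem exists_localModel_exponent (E : WeierstrassCurve ℚ) [E.IsElliptic] (h4 : E.c₄ ≠ 0)
    (h6 : E.c₆ ≠ 0) {q : ℕ} (hq : q.Prime) {A : ValuationSubring Qb} (hA : A.LiesOverPrime q)
    {N : ℕ} (hN : q ≠ 3 → 144 ∣ N) (hN3 : q = 3 → 120 ∣ N) :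
    ∃ C : VariableChange Qb, FA.Local.IntCoeff A.valuation (C • (E⁄Qb)).toAffine ∧
      (A.valuation (C • (E⁄Qb)).Δ = 1 ∨
        (A.valuation (C • (E⁄Qb)).Δ < 1 ∧ A.valuation (C • (E⁄Qb)).c₄ = 1)) ∧
      ∀ σ : GQ, (σ ^ N) C.u = C.u ∧ (σ ^ N) C.r = C.r ∧ (σ ^ N) C.s = C.s ∧
        (σ ^ N) C.t = C.t := by
  obtain ⟨W, hΔ, hj, hI, hcase, hshape⟩ := FA.IsogenyPrimes.exists_normalForm E hq hA
  obtain ⟨C, hC⟩ := FA.IsogenyPrimes.exists_variableChange_eq E W hΔ hj
  refine ⟨C, (congrArg (fun V : WeierstrassCurve Qb =>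
      FA.Local.IntCoeff A.valuation V.toAffine) hC).mpr hI,
    (congrArg (fun V : WeierstrassCurve Qb =>
      A.valuation V.Δ = 1 ∨ (A.valuation V.Δ < 1 ∧ A.valuation V.c₄ = 1)) hC).mpr hcase,
    fun σ => ?_⟩
  have heven : 2 ∣ N := by
    by_cases h : q = 3
    · exact (by norm_num : (2 : ℕ) ∣ 120).trans (hN3 h)
    · exact (by norm_num : (2 : ℕ) ∣ 144).trans (hN h)
  obtain ⟨m, rfl⟩ := heven
  have hfix : W.map ((σ ^ m : GQ) : Qb →+* Qb) = W := by
    rcases hshape with ⟨h3, l, rfl, hl⟩ | ⟨h3, a, rfl, ha⟩ | rfl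
    · have := legendre_fixed hl σ (N := m) (by have := hN3 h3; omega)
      generalize σ ^ m = τ at this ⊢
      ext <;> simp [this]
    · have := deuring_fixed ha σ (N := m) (by have := hN h3; omega)
      generalize σ ^ m = τ at this ⊢
      ext <;> simp [this]
    · generalize σ ^ m = τ
      ext <;> simp [map_ofNat]
  have h := sq_fixes_variableChange h4 h6 hC hfix
  rw [← pow_mul, mul_comm m 2] at h
  exact ⟨congrArg (fun D : VariableChange Qb => (D.u : Qb)) h,
    congrArg VariableChange.r h, congrArg VariableChange.s h, congrArg VariableChange.t h⟩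

end FA.SerreEffective

end
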