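import Fermat.Agent.SerreEffective.Exponent
import Fermat.Agent.Root.SummaryIsogenyPrimes

/-!
# An explicit condition on the primes of isogenies

If all the bad primes allow the exponent `N`, a good odd prime `p` with a Galois stable line
divides `l ^ N + 1 - t_N`, the number of points over the field of degree `N`, for every good `l`
different from `p`.
-/

set_option autoImplicit false
set_option linter.style.haveILetI false

noncomputable section

open WeierstrassCurve FA.EC FA.Frob FA.RT FA.RT.Tate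
open scoped WeierstrassCurve.Affine

local notation "Qb" => AlgebraicClosure ℚ
local notation "GQ" => AlgebraicClosure ℚ ≃ₐ[ℚ] AlgebraicClosure ℚ

namespace FA.SerreEffective

variable (W : WeierstrassCurve ℤ) [(ratCurve W).IsElliptic]

/-- One exponent at the places away from `p`. -/
theorem exists_inertia_exponent (h4 : W.c₄ ≠ 0) (h6 : W.c₆ ≠ 0) {N : ℕ} (hN : 144 ∣ N)
    (hN3 : (3 : ℤ) ∣ W.Δ → 720 ∣ N) {p : ℕ} [hp : Fact p.Prime] (hp2 : p ≠ 2) {q : ℕ}
    (hq : q.Prime) (hqp : q ≠ p) :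
    ∃ A : ValuationSubring Qb, A.LiesOverPrime q ∧
      ∀ σ ∈ A.inertiaSubgroupIn ℚ, ∀ g : Pts W, p • g = 0 →
        (∀ τ : GQ, ∃ k : ℕ, τ • g = k • g) → (σ ^ N) • g = g := by
  obtain ⟨A, hA⟩ := FA.Deform.exists_liesOverPrime hq
  refine ⟨A, hA, fun σ hσ g hg hst => ?_⟩
  by_cases hgood : W.IsGoodPrimeFor q
  · exact FA.RT.Tate.smul_eq_of_good hq hA hqp hgood (pow_mem hσ _) (n := 1) (by rwa [pow_one])
  have hq3 : q = 3 → 120 ∣ N := fun h => by
    refine (by norm_num : (120 : ℕ) ∣ 720).trans (hN3 ?_)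
    subst h
    exact_mod_cast not_not.mp hgood
  have h4' : (ratCurve W).c₄ ≠ 0 := by simpa [ratCurve] using h4
  have h6' : (ratCurve W).c₆ ≠ 0 := by simpa [ratCurve] using h6
  obtain ⟨C, hI, hred, hfix⟩ :=
    exists_localModel_exponent (ratCurve W) h4' h6' hq hA (fun _ => hN) hq3
  obtain ⟨hu, hr, hs, ht⟩ := hfix σ
  obtain ⟨k, hk⟩ := hst (σ ^ N)
  exact FA.IsogenyPrimes.smul_eq_of_localModel (ratCurve W) hq hA C hI hred (pow_mem hσ N)
    hu hr hs ht hp.out (hp.out.odd_of_ne_two hp2) hqp.symm hg hk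

/-- **The congruence**: a stable line of good odd residue characteristic `p` makes `p` divide the
number of points over the field of degree `N` at every other good prime. -/
theorem dvd_pointCount_of_line (h4 : W.c₄ ≠ 0) (h6 : W.c₆ ≠ 0) {N : ℕ} (hN : 144 ∣ N)
    (hN3 : (3 : ℤ) ∣ W.Δ → 720 ∣ N) {p : ℕ} [hp : Fact p.Prime] (hp2 : p ≠ 2)
    (hgood : W.IsGoodPrimeFor p) {g : Pts W} (hg0 : g ≠ 0) (hgp : p • g = 0)
    (hst : ∀ σ : GQ, ∃ k : ℕ, σ • g = k • g) {l : ℕ} (hl : l.Prime) (hlp : l ≠ p)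
    (hlgood : W.IsGoodPrimeFor l) :
    (p : ℤ) ∣ (l : ℤ) ^ N + 1 - FA.HasseBound.pointTrace (W.apOfModel l) l N :=
  FA.IsogenyPrimes.dvd_of_stable hgood hp2
    (fun _ hq hqp => exists_inertia_exponent W h4 h6 hN hN3 hp2 hq hqp) hg0 hgp hst hl hlp hlgood

end FA.SerreEffective

end
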