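import Fermat.Agent.SerreLarge.Main
import Fermat.Agent.SerreEffective.Isogeny

/-!
# Surjectivity at one prime from finitely many traces

At a good prime `p ≥ 11` with irreducible torsion the image is all of `GL₂(𝔽_p)` if every candidate
field of the dichotomy has an inert good prime `l ≠ p` whose trace is prime to `p`.
-/

set_option autoImplicit false
set_option linter.style.haveILetI false

noncomputable section

open WeierstrassCurve Matrix FA.EC FA.Frob FA.RT

local notation "Qb" => AlgebraicClosure ℚ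
local notation "GQ" => AlgebraicClosure ℚ ≃ₐ[ℚ] AlgebraicClosure ℚ

namespace FA.SerreEffective

/-- **Surjectivity at one prime.** -/
theorem exists_curveRep_eq_of_traces (W : WeierstrassCurve ℤ) [(ratCurve W).IsElliptic] {p : ℕ}
    [hp : Fact p.Prime] (h11 : 11 ≤ p) (hgood : W.IsGoodPrimeFor p)
    (hirr : W.ModRepIsIrreducible p)
    (h : ∀ d : ℤ, Squarefree d → d ≠ 1 → (∀ q : ℕ, q.Prime → (q : ℤ) ∣ d → (q : ℤ) ∣ W.Δ) →
      (d % 4 = 3 → (2 : ℤ) ∣ W.Δ) → ∃ l : ℕ, l.Prime ∧ l ≠ p ∧ ¬ (l : ℤ) ∣ W.Δ ∧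
        ¬ IsSquare (d : ZMod l) ∧ ¬ (p : ℤ) ∣ W.apOfModel l)
    (X : Matrix (Fin 2) (Fin 2) (ZMod p)) (hX : X.det ≠ 0) : ∃ σ : GQ, curveRep p W σ = X := by
  obtain ⟨σ, hsq, hne⟩ : ∃ σ, (curveRep p W σ - 1) * (curveRep p W σ - 1) = 0 ∧
      curveRep p W σ ≠ 1 := by
    by_contra hcon
    push Not at hcon
    obtain ⟨f, hf, hf0, htr⟩ := FA.SerreLarge.exists_character W h11 hgood hirr hcon
    obtain ⟨d, hd, hd1, hsupp, h4, hfrob⟩ := FA.SerreLarge.exists_field_of_character W hf hf0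
    obtain ⟨l, hl, hlp, hlgood, hns, hndvd⟩ := h d hd hd1 hsupp h4
    obtain ⟨B, hB⟩ := FA.Deform.exists_liesOverPrime hl
    obtain ⟨σ, hσ⟩ := FA.Deform.exists_isFrobeniusAt hl hB
    have h0 := htr ⟨σ, trivial⟩ (hfrob l hl hns B hB σ hσ)
    rw [trace_curveRep W hl hlgood hlp.symm hB hσ, ZMod.intCast_zmod_eq_zero_iff_dvd] at h0
    exact hndvd h0
  refine FA.Ribet.exists_eq_of_transvection _ (fun v hv => FA.Ribet.exists_moves_line hirr hv)
    (fun a ha => ?_) hne hsq hX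
  obtain ⟨g, hg⟩ := FA.TW.exists_cyclotomic_action hp.out (a := a.val) fun hd' => ha <| by
    rw [← ZMod.natCast_zmod_val a, (ZMod.natCast_eq_zero_iff _ _).mpr hd']
  exact ⟨g, by rw [det_curveRep W g a.val hg, ZMod.natCast_zmod_val]⟩

end FA.SerreEffective

end
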